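/-
ML / HARD / SM : leading monomials (H3 of section HARD).

`Lead P s` : the polynomial `P` is `monomial s 1` plus terms of strictly smaller total degree.
* `Lead` is multiplicative (`Lead.mul`, `Lead.pow`, `Lead.prod`);
* a family `L t` with `Lead (L t) (ℓ t)`, `ℓ` injective, is "independent modulo every integer `N`":
  `C N ∣ ∑ t ∈ S, C (c t) * L t → ∀ t ∈ S, N ∣ c t`  (`dvd_of_lead_sum`);  `N = 0` gives linear independence.
-/
import Mathlib

namespace Fermat.Agent.ML.Hard.SM

open MvPolynomial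

variable {τ : Type*} {R : Type*} [CommRing R]

/-- `P = monomial s 1 + (terms of strictly smaller total degree)`. -/
def Lead (P : MvPolynomial τ R) (s : τ →₀ ℕ) : Prop :=
  coeff s P = 1 ∧ ∀ u, coeff u P ≠ 0 → u ≠ s → u.degree < s.degree

theorem Lead.le {P : MvPolynomial τ R} {s : τ →₀ ℕ} (h : Lead P s) {u : τ →₀ ℕ}
    (hu : coeff u P ≠ 0) : u.degree ≤ s.degree := by
  by_cases hus : u = s
  · rw [hus]
  · exact (h.2 u hu hus).le

theorem Lead.eq_of_le {P : MvPolynomial τ R} {s : τ →₀ ℕ} (h : Lead P s) {u : τ →₀ ℕ}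
    (hu : coeff u P ≠ 0) (hd : s.degree ≤ u.degree) : u = s := by
  by_contra hus
  exact absurd (h.2 u hu hus) (not_lt.mpr hd)

theorem Lead.monomial (s : τ →₀ ℕ) : Lead (monomial s (1 : R)) s := by
  classical
  refine ⟨by simp, fun u hu hus => ?_⟩
  rw [coeff_monomial, if_neg (fun h => hus h.symm)] at hu
  exact absurd rfl hu

theorem Lead.one : Lead (1 : MvPolynomial τ R) 0 := by
  have := Lead.monomial (R := R) (0 : τ →₀ ℕ)
  simpa using this

theorem Lead.X (i : τ) : Lead (X i : MvPolynomial τ R) (Finsupp.single i 1) :=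
  Lead.monomial _

theorem Lead.mul {P P' : MvPolynomial τ R} {s s' : τ →₀ ℕ} (h : Lead P s) (h' : Lead P' s') :
    Lead (P * P') (s + s') := by
  classical
  constructor
  · rw [coeff_mul, Finset.sum_eq_single (s, s')]
    · simp [h.1, h'.1]
    · rintro ⟨u, u'⟩ hmem hne
      rw [Finset.HasAntidiagonal.mem_antidiagonal] at hmem
      by_contra hprod
      have hu : coeff u P ≠ 0 := fun h0 => hprod (by simp [h0])
      have hu' : coeff u' P' ≠ 0 := fun h0 => hprod (by simp [h0])
      have hdeg : u.degree + u'.degree = s.degree + s'.degree := by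
        rw [← map_add, ← map_add]; exact congrArg _ hmem
      have h1 := h.le hu
      have h2 := h'.le hu'
      have e1 : u = s := h.eq_of_le hu (by omega)
      have e2 : u' = s' := h'.eq_of_le hu' (by omega)
      exact hne (by rw [e1, e2])
    · intro hmem
      refine absurd ?_ hmem
      rw [Finset.HasAntidiagonal.mem_antidiagonal]
  · intro v hv hvs
    rw [coeff_mul] at hv
    obtain ⟨⟨u, u'⟩, hmem, hprod⟩ := Finset.exists_ne_zero_of_sum_ne_zero hv
    rw [Finset.HasAntidiagonal.mem_antidiagonal] at hmem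
    have hu : coeff u P ≠ 0 := fun h0 => hprod (by simp [h0])
    have hu' : coeff u' P' ≠ 0 := fun h0 => hprod (by simp [h0])
    have h1 := h.le hu
    have h2 := h'.le hu'
    simp only at hmem
    rw [← hmem, map_add, map_add]
    by_contra hlt
    have e1 : u = s := h.eq_of_le hu (by omega)
    have e2 : u' = s' := h'.eq_of_le hu' (by omega)
    exact hvs (by rw [← hmem, e1, e2])

theorem Lead.pow {P : MvPolynomial τ R} {s : τ →₀ ℕ} (h : Lead P s) (n : ℕ) :
    Lead (P ^ n) (n • s) := by
  induction n with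
  | zero => simpa using Lead.one
  | succ n ih => rw [pow_succ, succ_nsmul]; exact ih.mul h

theorem Lead.prod {ι : Type*} (S : Finset ι) {P : ι → MvPolynomial τ R} {s : ι → τ →₀ ℕ}
    (h : ∀ i ∈ S, Lead (P i) (s i)) : Lead (∏ i ∈ S, P i) (∑ i ∈ S, s i) := by
  classical
  induction S using Finset.induction_on with
  | empty => simpa using Lead.one
  | insert a S ha ih =>
    rw [Finset.prod_insert ha, Finset.sum_insert ha]
    exact (h a (Finset.mem_insert_self a S)).mul
      (ih fun i hi => h i (Finset.mem_insert_of_mem hi))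

/-- adding terms of smaller degree does not change the lead -/
theorem Lead.add_low {P r : MvPolynomial τ R} {s : τ →₀ ℕ} (h : Lead P s)
    (hr : ∀ u, coeff u r ≠ 0 → u.degree < s.degree) : Lead (P + r) s := by
  have hs : coeff s r = 0 := by
    by_contra h0
    exact absurd (hr s h0) (lt_irrefl _)
  refine ⟨by rw [coeff_add, h.1, hs, add_zero], fun u hu hus => ?_⟩
  rw [coeff_add] at hu
  by_cases h1 : coeff u P = 0
  · rw [h1, zero_add] at hu
    exact hr u hu
  · exact h.2 u h1 hus

theorem Lead.congr {P : MvPolynomial τ R} {s s' : τ →₀ ℕ} (h : Lead P s) (e : s = s') :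
    Lead P s' := e ▸ h

/-- **Triangular independence modulo any integer.** -/
theorem dvd_of_lead_sum {T : Type*} {L : T → MvPolynomial τ ℤ} {ℓ : T → τ →₀ ℕ}
    (hL : ∀ t, Lead (L t) (ℓ t)) (hinj : Function.Injective ℓ) (N : ℤ) (S : Finset T)
    (c : T → ℤ) (h : C N ∣ ∑ t ∈ S, C (c t) * L t) (t : T) (ht : t ∈ S) : N ∣ c t := by
  classical
  by_contra hbad
  have hne : (S.filter fun t => ¬ N ∣ c t).Nonempty := ⟨t, Finset.mem_filter.mpr ⟨ht, hbad⟩⟩
  obtain ⟨t0, ht0, hmax⟩ := Finset.exists_max_image _ (fun t => (ℓ t).degree) hne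
  rw [Finset.mem_filter] at ht0
  rw [C_dvd_iff_dvd_coeff] at h
  have h1 := h (ℓ t0)
  rw [coeff_sum, ← Finset.add_sum_erase _ _ ht0.1] at h1
  simp only [coeff_C_mul] at h1
  rw [(hL t0).1, mul_one] at h1
  have h2 : N ∣ ∑ x ∈ S.erase t0, c x * coeff (ℓ t0) (L x) := by
    refine Finset.dvd_sum fun x hx => ?_
    rw [Finset.mem_erase] at hx
    by_cases hNx : N ∣ c x
    · exact Dvd.dvd.mul_right hNx _
    · have hz : coeff (ℓ t0) (L x) = 0 := by
        by_contra hnz
        have hlt := (hL x).2 (ℓ t0) hnz (fun e => hx.1 (hinj e).symm)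
        have hle := hmax x (Finset.mem_filter.mpr ⟨hx.2, hNx⟩)
        exact absurd hlt (not_lt.mpr hle)
      rw [hz, mul_zero]
      exact dvd_zero N
  exact ht0.2 ((dvd_add_left h2).mp h1)

end Fermat.Agent.ML.Hard.SM
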