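/-
ML / HARD / SM : the abstract core of [H-SM] / [H-VAL] / STRUCT (section HARD, board #2565).

`Tri p A τ T` : a commutative ring `A` with an ideal `mm ∋ p`, a ring hom `Psi : A → ℤ[τ]` with
`Psi mm ⊆ (p)`, and a family `e t ∈ mm ^ w t` spanning `A` over `ℤ` with
`Psi (e t) = p ^ w t * L t`, `L t = monomial (ℓ t) + lower total degree`, `ℓ` injective.
Then
* `e` is a `ℤ`-basis of `A` (`Tri.basis`);
* `f ∈ mm ^ i ↔ ∀ t, p ^ (i - w t) ∣ coordinate t of f` (`Tri.mem_pow_iff`)      [STRUCT]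
* `f ∈ mm ^ i ↔ C p ^ i ∣ Psi f` (`Tri.mem_pow_iff_dvd`)                         [H-SM]
* `ord f := emultiplicity (C p) (Psi f)` is a valuation for `p` prime (`Tri.ord_mul`),
  `i ≤ ord f ↔ f ∈ mm ^ i` (`Tri.le_ord_iff`)                                   [H-VAL]
-/
import Fermat.Agent.ML.Hard.SM.Lead

namespace Fermat.Agent.ML.Hard.SM

open MvPolynomial

/-- triangular weighted system -/
structure Tri (p : ℕ) (A : Type*) [CommRing A] (τ : Type*) (T : Type*) where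
  Psi : A →+* MvPolynomial τ ℤ
  mm : Ideal A
  w : T → ℕ
  e : T → A
  L : T → MvPolynomial τ ℤ
  ℓ : T → τ →₀ ℕ
  p_mem : (p : A) ∈ mm
  Psi_mm : ∀ f ∈ mm, C (p : ℤ) ∣ Psi f
  e_mem : ∀ t, e t ∈ mm ^ w t
  Psi_e : ∀ t, Psi (e t) = C (p : ℤ) ^ w t * L t
  lead : ∀ t, Lead (L t) (ℓ t)
  inj : Function.Injective ℓ
  span : Submodule.span ℤ (Set.range e) = ⊤

namespace Tri

variable {p : ℕ} {A : Type*} [CommRing A] {τ T : Type*} (D : Tri p A τ T)

theorem Psi_sum (S : Finset T) (c : T → ℤ) :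
    D.Psi (∑ t ∈ S, c t • D.e t) = ∑ t ∈ S, C (c t * (p : ℤ) ^ D.w t) * D.L t := by
  rw [map_sum]
  refine Finset.sum_congr rfl fun t _ => ?_
  rw [zsmul_eq_mul, map_mul, map_intCast, D.Psi_e, C_mul, C_pow, mul_assoc]
  rfl

theorem dvd_of_dvd_Psi_sum (N : ℤ) (S : Finset T) (c : T → ℤ)
    (h : C N ∣ D.Psi (∑ t ∈ S, c t • D.e t)) (t : T) (ht : t ∈ S) :
    N ∣ c t * (p : ℤ) ^ D.w t := by
  rw [D.Psi_sum] at h
  exact dvd_of_lead_sum D.lead D.inj N S (fun t => c t * (p : ℤ) ^ D.w t) h t ht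

theorem linearIndependent (hp : p ≠ 0) : LinearIndependent ℤ D.e := by
  rw [linearIndependent_iff']
  intro S c h t ht
  have h0 : (C (0 : ℤ) : MvPolynomial τ ℤ) ∣ D.Psi (∑ t ∈ S, c t • D.e t) := by
    rw [h, map_zero (D.Psi)]; exact dvd_zero _
  have h1 := D.dvd_of_dvd_Psi_sum 0 S c h0 t ht
  rw [zero_dvd_iff] at h1
  rcases mul_eq_zero.mp h1 with h2 | h2
  · exact h2
  · exact absurd h2 (pow_ne_zero _ (by exact_mod_cast hp))

/-- the basis `e` -/
noncomputable def basis (hp : p ≠ 0) : Module.Basis T ℤ A :=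
  Module.Basis.mk (D.linearIndependent hp) (le_of_eq D.span.symm)

@[simp] theorem basis_apply (hp : p ≠ 0) (t : T) : D.basis hp t = D.e t := by
  simp [basis]

theorem sum_repr (hp : p ≠ 0) (f : A) :
    ∑ t ∈ ((D.basis hp).repr f).support, (D.basis hp).repr f t • D.e t = f := by
  have := (D.basis hp).linearCombination_repr f
  rw [Finsupp.linearCombination_apply, Finsupp.sum] at this
  simpa using this

theorem dvd_Psi_of_mem_pow {i : ℕ} {f : A} (h : f ∈ D.mm ^ i) : C (p : ℤ) ^ i ∣ D.Psi f := by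
  have h1 : (D.mm ^ i).map D.Psi ≤ Ideal.span {C (p : ℤ) ^ i} := by
    rw [Ideal.map_pow, ← Ideal.span_singleton_pow]
    refine Ideal.pow_right_mono ?_ i
    rw [Ideal.map_le_iff_le_comap]
    intro g hg
    rw [Ideal.mem_comap, Ideal.mem_span_singleton]
    exact D.Psi_mm g hg
  exact Ideal.mem_span_singleton.mp (h1 (Ideal.mem_map_of_mem _ h))

theorem pow_smul_e_mem {i : ℕ} (t : T) (c : ℤ) (h : (p : ℤ) ^ (i - D.w t) ∣ c) :
    c • D.e t ∈ D.mm ^ i := by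
  obtain ⟨c', rfl⟩ := h
  have h1 : ((p : A) ^ (i - D.w t)) * D.e t ∈ D.mm ^ (i - D.w t + D.w t) := by
    rw [pow_add]
    exact Ideal.mul_mem_mul (Ideal.pow_mem_pow D.p_mem _) (D.e_mem t)
  have h2 : ((p : A) ^ (i - D.w t)) * D.e t ∈ D.mm ^ i :=
    Ideal.pow_le_pow_right (by omega) h1
  have h3 : ((p : ℤ) ^ (i - D.w t) * c') • D.e t = (c' : A) * (((p : A) ^ (i - D.w t)) * D.e t) := by
    rw [zsmul_eq_mul]; push_cast; ring
  rw [h3]
  exact Ideal.mul_mem_left _ _ h2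

theorem repr_dvd_of_dvd_Psi (hp : p ≠ 0) {i : ℕ} {f : A} (h : C (p : ℤ) ^ i ∣ D.Psi f) (t : T) :
    (p : ℤ) ^ (i - D.w t) ∣ (D.basis hp).repr f t := by
  by_cases ht : t ∈ ((D.basis hp).repr f).support
  · rw [← D.sum_repr hp f, ← C_pow] at h
    have h1 := D.dvd_of_dvd_Psi_sum _ _ _ h t ht
    rcases le_total i (D.w t) with hle | hle
    · rw [Nat.sub_eq_zero_of_le hle, pow_zero]; exact one_dvd _
    · have h2 : (p : ℤ) ^ i = (p : ℤ) ^ (i - D.w t) * (p : ℤ) ^ D.w t := by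
        rw [← pow_add, Nat.sub_add_cancel hle]
      rw [h2] at h1
      exact (mul_dvd_mul_iff_right (pow_ne_zero _ (by exact_mod_cast hp))).mp h1
  · rw [Finsupp.notMem_support_iff] at ht
    rw [ht]; exact dvd_zero _

theorem mem_pow_of_repr_dvd (hp : p ≠ 0) {i : ℕ} {f : A}
    (h : ∀ t, (p : ℤ) ^ (i - D.w t) ∣ (D.basis hp).repr f t) : f ∈ D.mm ^ i := by
  rw [← D.sum_repr hp f]
  exact Ideal.sum_mem _ fun t _ => D.pow_smul_e_mem t _ (h t)

/-- **[H-SM]** together with its (easy) converse -/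
theorem mem_pow_iff_dvd (hp : p ≠ 0) {i : ℕ} {f : A} :
    f ∈ D.mm ^ i ↔ C (p : ℤ) ^ i ∣ D.Psi f :=
  ⟨D.dvd_Psi_of_mem_pow, fun h => D.mem_pow_of_repr_dvd hp (D.repr_dvd_of_dvd_Psi hp h)⟩

/-- **STRUCT** -/
theorem mem_pow_iff (hp : p ≠ 0) {i : ℕ} {f : A} :
    f ∈ D.mm ^ i ↔ ∀ t, (p : ℤ) ^ (i - D.w t) ∣ (D.basis hp).repr f t :=
  ⟨fun h => D.repr_dvd_of_dvd_Psi hp (D.dvd_Psi_of_mem_pow h), D.mem_pow_of_repr_dvd hp⟩

theorem Psi_injective (hp : p ≠ 0) : Function.Injective D.Psi := by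
  rw [injective_iff_map_eq_zero]
  intro f hf
  rw [← D.sum_repr hp f] at hf ⊢
  refine Finset.sum_eq_zero fun t ht => ?_
  have h0 : (C (0 : ℤ) : MvPolynomial τ ℤ) ∣ D.Psi (∑ t ∈ ((D.basis hp).repr f).support,
      (D.basis hp).repr f t • D.e t) := by rw [hf]; exact dvd_zero _
  have h1 := D.dvd_of_dvd_Psi_sum 0 _ _ h0 t ht
  rw [zero_dvd_iff] at h1
  rcases mul_eq_zero.mp h1 with h2 | h2
  · rw [h2, zero_smul]
  · exact absurd h2 (pow_ne_zero _ (by exact_mod_cast hp))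

/-- the order function `v` of #2565 -/
noncomputable def ord (f : A) : ℕ∞ := emultiplicity (C (p : ℤ)) (D.Psi f)

theorem le_ord_iff (hp : p ≠ 0) {i : ℕ} {f : A} : (i : ℕ∞) ≤ D.ord f ↔ f ∈ D.mm ^ i := by
  rw [D.mem_pow_iff_dvd hp, ord, pow_dvd_iff_le_emultiplicity]

theorem prime_C (hp : p.Prime) : Prime (C (p : ℤ) : MvPolynomial τ ℤ) :=
  (MvPolynomial.prime_C_iff (σ := τ)).mpr (Nat.prime_iff_prime_int.mp hp)

/-- **[H-VAL]** -/
theorem ord_mul (hp : p.Prime) (f g : A) : D.ord (f * g) = D.ord f + D.ord g := by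
  rw [ord, map_mul, emultiplicity_mul (prime_C hp)]; rfl

theorem ord_eq_top_iff (hp : p.Prime) {f : A} : D.ord f = ⊤ ↔ f = 0 := by
  constructor
  · intro h
    by_contra hf
    have hne : D.Psi f ≠ 0 := fun h0 => hf (D.Psi_injective hp.ne_zero (by rw [h0, map_zero]))
    have hfin : FiniteMultiplicity (C (p : ℤ)) (D.Psi f) :=
      FiniteMultiplicity.of_prime_left (prime_C hp) hne
    exact absurd h (finiteMultiplicity_iff_emultiplicity_ne_top.mp hfin)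
  · rintro rfl
    rw [ord, map_zero, emultiplicity_zero]

/-- cancellation: the form of VAL + SM used by [H-CUT] -/
theorem mem_pow_of_mul_mem (hp : p.Prime) {F g : A} {f J : ℕ} (hF : F ∉ D.mm ^ (f + 1))
    (h : F * g ∈ D.mm ^ J) : g ∈ D.mm ^ (J - f) := by
  rw [← D.le_ord_iff hp.ne_zero] at hF h ⊢
  rw [D.ord_mul hp] at h
  rw [not_le] at hF
  have hF' : D.ord F ≤ f := by
    refine Order.le_of_lt_add_one ?_
    exact_mod_cast hF
  by_cases hg : D.ord g = ⊤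
  · rw [hg]; exact le_top
  · obtain ⟨a, ha⟩ := ENat.ne_top_iff_exists.mp hg
    obtain ⟨b, hb⟩ := ENat.ne_top_iff_exists.mp (ne_top_of_le_ne_top (ENat.natCast_ne_top f) hF')
    rw [← ha, ← hb] at h
    rw [← hb] at hF'
    rw [← ha]
    have h1 : J ≤ b + a := by exact_mod_cast h
    have h2 : b ≤ f := by exact_mod_cast hF'
    have h3 : J - f ≤ a := by omega
    exact_mod_cast h3

end Tri

end Fermat.Agent.ML.Hard.SM
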