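/-
ML / HARD / SM : one scroll block (H2 of section HARD, board #2565).

Six elements `v 0 .. v 5 = x0 x1 x2 y0 y1 y2` of a commutative ring with the 2x2 minors of
`[[x0, x1, y0, y1 - d], [x1, x2, y1, y2]]` equal to zero (`IsScroll d v`).
Normal monomials: four families indexed by `ℕ³` (type `NI`):
  Ia  x0^i y0^l y2^n,   Ib  x0^i y0^l y1 y2^n,   IIa  x0^i x2^(k+1) y2^n,   IIb  x0^i x1 x2^k y2^n.
`mul_mu_mem` : the additive span of (`R` times) the normal monomials is stable under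
multiplication by the six generators.
-/
import Mathlib

namespace Fermat.Agent.ML.Hard.SM

/-- index of the normal monomials of a scroll block -/
inductive NI : Type
  | Ia (i l n : ℕ)
  | Ib (i l n : ℕ)
  | IIa (i k n : ℕ)
  | IIb (i k n : ℕ)

/-- degree of a normal monomial -/
def NI.deg : NI → ℕ
  | .Ia i l n => i + l + n
  | .Ib i l n => i + l + 1 + n
  | .IIa i k n => i + (k + 1) + n
  | .IIb i k n => i + 1 + k + n

/-- code, for counting -/
def NI.code : NI → Fin 4 × ℕ × ℕ × ℕ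
  | .Ia i l n => (0, i, l, n)
  | .Ib i l n => (1, i, l, n)
  | .IIa i k n => (2, i, k, n)
  | .IIb i k n => (3, i, k, n)

theorem NI.code_injective : Function.Injective NI.code := by
  intro a b h
  cases a <;> cases b <;> simp [NI.code] at h ⊢ <;> exact h

theorem NI.code_le (t : NI) :
    t.code.2.1 ≤ t.deg ∧ t.code.2.2.1 ≤ t.deg ∧ t.code.2.2.2 ≤ t.deg := by
  cases t <;> simp only [NI.code, NI.deg] <;> omega

variable {A : Type*} [CommRing A]

/-- the six minors -/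
def scrollRel (d : A) (v : Fin 6 → A) : Fin 6 → A :=
  ![v 1 ^ 2 - v 0 * v 2, v 1 * v 3 - v 0 * v 4, v 1 * v 4 - (v 0 * v 5 + d * v 1),
    v 2 * v 3 - (v 0 * v 5 + d * v 1), v 2 * v 4 - (v 1 * v 5 + d * v 2),
    v 4 ^ 2 - (v 3 * v 5 + d * v 4)]

/-- the six minors vanish -/
def IsScroll (d : A) (v : Fin 6 → A) : Prop := ∀ j, scrollRel d v j = 0

theorem IsScroll.r1 {d : A} {v : Fin 6 → A} (h : IsScroll d v) : v 1 ^ 2 = v 0 * v 2 :=
  sub_eq_zero.mp (h 0)
theorem IsScroll.r2 {d : A} {v : Fin 6 → A} (h : IsScroll d v) : v 1 * v 3 = v 0 * v 4 :=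
  sub_eq_zero.mp (h 1)
theorem IsScroll.r3 {d : A} {v : Fin 6 → A} (h : IsScroll d v) :
    v 1 * v 4 = v 0 * v 5 + d * v 1 := sub_eq_zero.mp (h 2)
theorem IsScroll.r4 {d : A} {v : Fin 6 → A} (h : IsScroll d v) :
    v 2 * v 3 = v 0 * v 5 + d * v 1 := sub_eq_zero.mp (h 3)
theorem IsScroll.r5 {d : A} {v : Fin 6 → A} (h : IsScroll d v) :
    v 2 * v 4 = v 1 * v 5 + d * v 2 := sub_eq_zero.mp (h 4)
theorem IsScroll.r6 {d : A} {v : Fin 6 → A} (h : IsScroll d v) :
    v 4 ^ 2 = v 3 * v 5 + d * v 4 := sub_eq_zero.mp (h 5)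

theorem isScroll_iff {d : A} {v : Fin 6 → A} : IsScroll d v ↔
    v 1 ^ 2 = v 0 * v 2 ∧ v 1 * v 3 = v 0 * v 4 ∧ v 1 * v 4 = v 0 * v 5 + d * v 1 ∧
    v 2 * v 3 = v 0 * v 5 + d * v 1 ∧ v 2 * v 4 = v 1 * v 5 + d * v 2 ∧
    v 4 ^ 2 = v 3 * v 5 + d * v 4 := by
  constructor
  · intro h
    exact ⟨h.r1, h.r2, h.r3, h.r4, h.r5, h.r6⟩
  · rintro ⟨h1, h2, h3, h4, h5, h6⟩ j
    fin_cases j
    · exact sub_eq_zero.mpr h1
    · exact sub_eq_zero.mpr h2
    · exact sub_eq_zero.mpr h3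
    · exact sub_eq_zero.mpr h4
    · exact sub_eq_zero.mpr h5
    · exact sub_eq_zero.mpr h6

/-- the normal monomials -/
def mu (v : Fin 6 → A) : NI → A
  | .Ia i l n => v 0 ^ i * v 3 ^ l * v 5 ^ n
  | .Ib i l n => v 0 ^ i * v 3 ^ l * v 4 * v 5 ^ n
  | .IIa i k n => v 0 ^ i * v 2 ^ (k + 1) * v 5 ^ n
  | .IIb i k n => v 0 ^ i * v 1 * v 2 ^ k * v 5 ^ n

@[simp] theorem mu_one (v : Fin 6 → A) : mu v (.Ia 0 0 0) = 1 := by simp [mu]

theorem map_mu {B : Type*} [CommRing B] (φ : A →+* B) (v : Fin 6 → A) (t : NI) :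
    φ (mu v t) = mu (fun j => φ (v j)) t := by
  cases t <;> simp [mu]

theorem mu_smul (c : A) (v : Fin 6 → A) (t : NI) :
    mu (fun j => c * v j) t = c ^ t.deg * mu v t := by
  cases t <;> simp only [mu, NI.deg, mul_pow, pow_add, pow_one] <;> ring

theorem mu_mem_pow (I : Ideal A) (v : Fin 6 → A) (hv : ∀ j, v j ∈ I) (t : NI) :
    mu v t ∈ I ^ t.deg := by
  cases t <;> simp only [mu, NI.deg, pow_add, pow_one]
  · exact Ideal.mul_mem_mul (Ideal.mul_mem_mul (Ideal.pow_mem_pow (hv _) _)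
      (Ideal.pow_mem_pow (hv _) _)) (Ideal.pow_mem_pow (hv _) _)
  · exact Ideal.mul_mem_mul (Ideal.mul_mem_mul (Ideal.mul_mem_mul (Ideal.pow_mem_pow (hv _) _)
      (Ideal.pow_mem_pow (hv _) _)) (hv _)) (Ideal.pow_mem_pow (hv _) _)
  · exact Ideal.mul_mem_mul (Ideal.mul_mem_mul (Ideal.pow_mem_pow (hv _) _)
      (Ideal.mul_mem_mul (Ideal.pow_mem_pow (hv _) _) (hv _))) (Ideal.pow_mem_pow (hv _) _)
  · exact Ideal.mul_mem_mul (Ideal.mul_mem_mul (Ideal.mul_mem_mul (Ideal.pow_mem_pow (hv _) _)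
      (hv _)) (Ideal.pow_mem_pow (hv _) _)) (Ideal.pow_mem_pow (hv _) _)

/-- **SPAN, one block.**  If an additive subgroup `N` contains `R * μ` for all normal monomials
`μ`, it contains `R * (v j * μ)`. -/
theorem mul_mu_mem {d : ℤ} {v : Fin 6 → A} (h : IsScroll (d : A) v) (N : AddSubgroup A) (R : A)
    (hN : ∀ t, R * mu v t ∈ N) (j : Fin 6) (t : NI) : R * (v j * mu v t) ∈ N := by
  have hd : ∀ t, R * ((d : A) * mu v t) ∈ N := fun t => by
    have := N.zsmul_mem (hN t) d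
    rwa [zsmul_eq_mul, mul_left_comm] at this
  have hdd : ∀ t, R * ((d : A) ^ 2 * mu v t) ∈ N := fun t => by
    have := N.zsmul_mem (hd t) d
    rw [zsmul_eq_mul, mul_left_comm] at this
    convert this using 2
    ring
  have r1 := h.r1
  have r2 := h.r2
  have r3 := h.r3
  have r4 := h.r4
  have r5 := h.r5
  have r6 := h.r6
  -- three shapes of answers
  have one : ∀ (x : A) (t1 : NI), x = mu v t1 → R * x ∈ N := fun x t1 e => e ▸ hN t1
  have two : ∀ (x : A) (t1 t2 : NI), x = mu v t1 + (d : A) * mu v t2 → R * x ∈ N :=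
    fun x t1 t2 e => by
      rw [e, mul_add]; exact N.add_mem (hN t1) (hd t2)
  have three : ∀ (x : A) (t1 t2 t3 : NI),
      x = mu v t1 + (d : A) * mu v t2 + (d : A) ^ 2 * mu v t3 → R * x ∈ N :=
    fun x t1 t2 t3 e => by
      rw [e, mul_add, mul_add]; exact N.add_mem (N.add_mem (hN t1) (hd t2)) (hdd t3)
  have H0 : ∀ t, R * (v 0 * mu v t) ∈ N := by
    intro t
    rcases t with ⟨i, l, n⟩ | ⟨i, l, n⟩ | ⟨i, k, n⟩ | ⟨i, k, n⟩
    · exact one _ (.Ia (i + 1) l n) (by simp only [mu]; ring)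
    · exact one _ (.Ib (i + 1) l n) (by simp only [mu]; ring)
    · exact one _ (.IIa (i + 1) k n) (by simp only [mu]; ring)
    · exact one _ (.IIb (i + 1) k n) (by simp only [mu]; ring)
  have H1 : ∀ t, R * (v 1 * mu v t) ∈ N := by
    intro t
    rcases t with ⟨i, l, n⟩ | ⟨i, l, n⟩ | ⟨i, k, n⟩ | ⟨i, k, n⟩
    · rcases l with _ | l
      · exact one _ (.IIb i 0 n) (by simp only [mu]; ring)
      · exact one _ (.Ib (i + 1) l n) (by
          simp only [mu]; linear_combination (v 0 ^ i * v 3 ^ l * v 5 ^ n) * r2)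
    · rcases l with _ | l
      · exact two _ (.Ia (i + 1) 0 (n + 1)) (.IIb i 0 n) (by
          simp only [mu]; linear_combination (v 0 ^ i * v 5 ^ n) * r3)
      · exact two _ (.Ia (i + 1) (l + 1) (n + 1)) (.Ib (i + 1) l n) (by
          simp only [mu]
          linear_combination (v 0 ^ i * v 3 ^ (l + 1) * v 5 ^ n) * r3 +
            ((d : A) * v 0 ^ i * v 3 ^ l * v 5 ^ n) * r2)
    · exact one _ (.IIb i (k + 1) n) (by simp only [mu]; ring)
    · exact one _ (.IIa (i + 1) k n) (by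
        simp only [mu]; linear_combination (v 0 ^ i * v 2 ^ k * v 5 ^ n) * r1)
  have H2 : ∀ t, R * (v 2 * mu v t) ∈ N := by
    intro t
    rcases t with ⟨i, l, n⟩ | ⟨i, l, n⟩ | ⟨i, k, n⟩ | ⟨i, k, n⟩
    · rcases l with _ | _ | l
      · exact one _ (.IIa i 0 n) (by simp only [mu]; ring)
      · exact two _ (.Ia (i + 1) 0 (n + 1)) (.IIb i 0 n) (by
          simp only [mu]; linear_combination (v 0 ^ i * v 5 ^ n) * r4)
      · exact two _ (.Ia (i + 1) (l + 1) (n + 1)) (.Ib (i + 1) l n) (by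
          simp only [mu]
          linear_combination (v 0 ^ i * v 3 ^ (l + 1) * v 5 ^ n) * r4 +
            ((d : A) * v 0 ^ i * v 3 ^ l * v 5 ^ n) * r2)
    · rcases l with _ | _ | l
      · exact two _ (.IIb i 0 (n + 1)) (.IIa i 0 n) (by
          simp only [mu]; linear_combination (v 0 ^ i * v 5 ^ n) * r5)
      · exact three _ (.Ib (i + 1) 0 (n + 1)) (.Ia (i + 1) 0 (n + 1)) (.IIb i 0 n) (by
          simp only [mu]
          linear_combination (v 0 ^ i * v 3 * v 5 ^ n) * r5 + (v 0 ^ i * v 5 ^ (n + 1)) * r2 +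
            ((d : A) * v 0 ^ i * v 5 ^ n) * r4)
      · exact three _ (.Ib (i + 1) (l + 1) (n + 1)) (.Ia (i + 1) (l + 1) (n + 1))
          (.Ib (i + 1) l n) (by
          simp only [mu]
          linear_combination (v 0 ^ i * v 3 ^ (l + 2) * v 5 ^ n) * r5 +
            (v 0 ^ i * v 3 ^ (l + 1) * v 5 ^ (n + 1)) * r2 +
            ((d : A) * v 0 ^ i * v 3 ^ (l + 1) * v 5 ^ n) * r4 +
            ((d : A) ^ 2 * v 0 ^ i * v 3 ^ l * v 5 ^ n) * r2)
    · exact one _ (.IIa i (k + 1) n) (by simp only [mu]; ring)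
    · exact one _ (.IIb i (k + 1) n) (by simp only [mu]; ring)
  have H3 : ∀ t, R * (v 3 * mu v t) ∈ N := by
    intro t
    rcases t with ⟨i, l, n⟩ | ⟨i, l, n⟩ | ⟨i, k, n⟩ | ⟨i, k, n⟩
    · exact one _ (.Ia i (l + 1) n) (by simp only [mu]; ring)
    · exact one _ (.Ib i (l + 1) n) (by simp only [mu]; ring)
    · rcases k with _ | k
      · exact two _ (.Ia (i + 1) 0 (n + 1)) (.IIb i 0 n) (by
          simp only [mu]; linear_combination (v 0 ^ i * v 5 ^ n) * r4)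
      · exact two _ (.IIa (i + 1) k (n + 1)) (.IIb i (k + 1) n) (by
          simp only [mu]; linear_combination (v 0 ^ i * v 2 ^ (k + 1) * v 5 ^ n) * r4)
    · rcases k with _ | k
      · exact one _ (.Ib (i + 1) 0 n) (by
          simp only [mu]; linear_combination (v 0 ^ i * v 5 ^ n) * r2)
      · exact two _ (.IIb (i + 1) k (n + 1)) (.IIa (i + 1) k n) (by
          simp only [mu]
          linear_combination (v 0 ^ i * v 2 ^ (k + 1) * v 5 ^ n) * r2 +
            (v 0 ^ (i + 1) * v 2 ^ k * v 5 ^ n) * r5)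
  have H4 : ∀ t, R * (v 4 * mu v t) ∈ N := by
    intro t
    rcases t with ⟨i, l, n⟩ | ⟨i, l, n⟩ | ⟨i, k, n⟩ | ⟨i, k, n⟩
    · exact one _ (.Ib i l n) (by simp only [mu]; ring)
    · exact two _ (.Ia i (l + 1) (n + 1)) (.Ib i l n) (by
        simp only [mu]; linear_combination (v 0 ^ i * v 3 ^ l * v 5 ^ n) * r6)
    · exact two _ (.IIb i k (n + 1)) (.IIa i k n) (by
        simp only [mu]; linear_combination (v 0 ^ i * v 2 ^ k * v 5 ^ n) * r5)
    · rcases k with _ | k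
      · exact two _ (.Ia (i + 1) 0 (n + 1)) (.IIb i 0 n) (by
          simp only [mu]; linear_combination (v 0 ^ i * v 5 ^ n) * r3)
      · exact two _ (.IIa (i + 1) k (n + 1)) (.IIb i (k + 1) n) (by
          simp only [mu]; linear_combination (v 0 ^ i * v 2 ^ (k + 1) * v 5 ^ n) * r3)
  have H5 : ∀ t, R * (v 5 * mu v t) ∈ N := by
    intro t
    rcases t with ⟨i, l, n⟩ | ⟨i, l, n⟩ | ⟨i, k, n⟩ | ⟨i, k, n⟩
    · exact one _ (.Ia i l (n + 1)) (by simp only [mu]; ring)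
    · exact one _ (.Ib i l (n + 1)) (by simp only [mu]; ring)
    · exact one _ (.IIa i k (n + 1)) (by simp only [mu]; ring)
    · exact one _ (.IIb i k (n + 1)) (by simp only [mu]; ring)
  fin_cases j
  exacts [H0 t, H1 t, H2 t, H3 t, H4 t, H5 t]

end Fermat.Agent.ML.Hard.SM
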