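/-
ML / HARD / SM : the parametrisation of one scroll block and its leading monomials.
  x0 x1 x2 y0 y1 y2  ↦  c * (b, lam b, lam² b, g, lam g, lam² g - lam d')     (d = c * d')
-/
import Fermat.Agent.ML.Hard.SM.Lead
import Fermat.Agent.ML.Hard.SM.Scroll

namespace Fermat.Agent.ML.Hard.SM

open MvPolynomial

section general

variable {A : Type*} [CommRing A]

theorem map_scrollRel {B : Type*} [CommRing B] (φ : A →+* B) (d : A) (v : Fin 6 → A) (j : Fin 6) :
    φ (scrollRel d v j) = scrollRel (φ d) (fun i => φ (v i)) j := by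
  fin_cases j <;> simp [scrollRel]

/-- the parametrisation, divided by `c` -/
def par (lam b g d' : A) : Fin 6 → A :=
  ![b, lam * b, lam ^ 2 * b, g, lam * g, lam ^ 2 * g - lam * d']

theorem isScroll_par (c lam b g d' : A) :
    IsScroll (c * d') (fun j => c * par lam b g d' j) := by
  rw [isScroll_iff]
  simp only [par, Matrix.cons_val_zero, Matrix.cons_val_one, Matrix.cons_val]
  refine ⟨?_, ?_, ?_, ?_, ?_, ?_⟩ <;> ring

/-- additive analogue of `mu` -/
def muS {M : Type*} [AddCommMonoid M] (s : Fin 6 → M) : NI → M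
  | .Ia i l n => i • s 0 + l • s 3 + n • s 5
  | .Ib i l n => i • s 0 + l • s 3 + s 4 + n • s 5
  | .IIa i k n => i • s 0 + (k + 1) • s 2 + n • s 5
  | .IIb i k n => i • s 0 + s 1 + k • s 2 + n • s 5

/-- exponents of `lam, b, g` in the leading monomial -/
def lead3 : NI → Fin 3 → ℕ
  | .Ia i l n => ![2 * n, i, l + n]
  | .Ib i l n => ![2 * n + 1, i, l + n + 1]
  | .IIa i k n => ![2 * k + 2 + 2 * n, i + k + 1, n]
  | .IIb i k n => ![1 + 2 * k + 2 * n, i + k + 1, n]

theorem lead3_injective : Function.Injective lead3 := by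
  intro a b h
  have h0 := congrFun h 0
  have h1 := congrFun h 1
  have h2 := congrFun h 2
  cases a <;> cases b <;> simp [lead3] at h0 h1 h2 ⊢ <;> omega

end general

section lead

variable {τ : Type*} {R : Type*} [CommRing R]

theorem lead_mu {v : Fin 6 → MvPolynomial τ R} {s : Fin 6 → τ →₀ ℕ}
    (h : ∀ j, Lead (v j) (s j)) (t : NI) : Lead (mu v t) (muS s t) := by
  cases t with
  | Ia i l n => exact (((h 0).pow i).mul ((h 3).pow l)).mul ((h 5).pow n)
  | Ib i l n => exact ((((h 0).pow i).mul ((h 3).pow l)).mul (h 4)).mul ((h 5).pow n)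
  | IIa i k n => exact (((h 0).pow i).mul ((h 2).pow (k + 1))).mul ((h 5).pow n)
  | IIb i k n => exact ((((h 0).pow i).mul (h 1)).mul ((h 2).pow k)).mul ((h 5).pow n)

/-- leading exponents of the parametrisation -/
noncomputable def parS (a b c : τ) : Fin 6 → τ →₀ ℕ :=
  ![Finsupp.single b 1, Finsupp.single a 1 + Finsupp.single b 1,
    2 • Finsupp.single a 1 + Finsupp.single b 1, Finsupp.single c 1,
    Finsupp.single a 1 + Finsupp.single c 1, 2 • Finsupp.single a 1 + Finsupp.single c 1]

theorem lead_par (a b c : τ) (d' : R) (j : Fin 6) :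
    Lead (par (X a) (X b) (X c) (C d') j : MvPolynomial τ R) (parS a b c j) := by
  fin_cases j
  · exact Lead.X b
  · exact (Lead.X a).mul (Lead.X b)
  · exact ((Lead.X a).pow 2).mul (Lead.X b)
  · exact Lead.X c
  · exact (Lead.X a).mul (Lead.X c)
  · show Lead (X a ^ 2 * X c - X a * C d') (2 • Finsupp.single a 1 + Finsupp.single c 1)
    rw [sub_eq_add_neg]
    refine (((Lead.X a).pow 2).mul (Lead.X c)).add_low fun u hu => ?_
    classical
    have e : -(X a * C d' : MvPolynomial τ R) = monomial (Finsupp.single a 1) (-d') := by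
      rw [mul_comm, C_mul_X_eq_monomial, ← map_neg]
    rw [e, coeff_monomial] at hu
    have hu' : Finsupp.single a 1 = u := by
      by_contra hne
      rw [if_neg hne] at hu
      exact hu rfl
    rw [← hu']
    simp [map_add, Finsupp.degree_single]

theorem muS_parS (a b c : τ) (t : NI) :
    muS (parS a b c) t = Finsupp.single a (lead3 t 0) + Finsupp.single b (lead3 t 1) +
      Finsupp.single c (lead3 t 2) := by
  rw [← Finsupp.smul_single_one a, ← Finsupp.smul_single_one b, ← Finsupp.smul_single_one c]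
  cases t <;>
  simp only [muS, parS, lead3, Matrix.cons_val_zero, Matrix.cons_val_one, Matrix.cons_val] <;>
  module

end lead

end Fermat.Agent.ML.Hard.SM
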