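/-
ML / HARD / SM : the model ring `BB` of section HARD (board #2565) and its `Tri` structure.

`H` = raised hard primes (one scroll block each), `K` = all other variables, `d h = p * d' h`.
  Src H K = (H × Fin 6) ⊕ K   [x0 x1 x2 y0 y1 y2 | X],   Tgt H K = (H × Fin 3) ⊕ K  [lam b g | X]
  BB K p d' = ℤ[Src] / (REL-H),   mmB = (p, all variables),
  PsiB : BB → ℤ[Tgt]  the substitution of #2565.
Main result: `tri K p d' : Tri p (BB K p d') (Tgt H K) (TT H K)`; all the theorems of `Core.lean`
apply ([H-SM], [H-VAL], STRUCT).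
-/
import Fermat.Agent.ML.Hard.SM.Core
import Fermat.Agent.ML.Hard.SM.Par

namespace Fermat.Agent.ML.Hard.SM

open MvPolynomial

noncomputable section

/-- source variables -/
abbrev Src (H K : Type*) := (H × Fin 6) ⊕ K
/-- target variables -/
abbrev Tgt (H K : Type*) := (H × Fin 3) ⊕ K
/-- index of the basis -/
abbrev TT (H K : Type*) := (H → NI) × (K → ℕ)

section defs

variable {H : Type*} (K : Type*) (p : ℕ) (d' : H → ℤ)

/-- the ideal (REL-H) -/
def relI : Ideal (MvPolynomial (Src H K) ℤ) :=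
  Ideal.span (Set.range fun hj : H × Fin 6 =>
    scrollRel (C ((p : ℤ) * d' hj.1)) (fun j => X (Sum.inl (hj.1, j))) hj.2)

/-- the model ring -/
abbrev BB : Type _ := MvPolynomial (Src H K) ℤ ⧸ relI K p d'

/-- the variables in `BB` -/
def xB (x : Src H K) : BB K p d' := Ideal.Quotient.mk _ (X x)

/-- the six generators of block `h` -/
def vB (h : H) (j : Fin 6) : BB K p d' := xB K p d' (Sum.inl (h, j))

/-- the maximal ideal `(p, variables)` -/
def mmB : Ideal (BB K p d') := Ideal.span (insert (p : BB K p d') (Set.range (xB K p d')))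

/-- parametrisation of block `h`, divided by `p` -/
def parB (h : H) : Fin 6 → MvPolynomial (Tgt H K) ℤ :=
  par (X (Sum.inl (h, 0))) (X (Sum.inl (h, 1))) (X (Sum.inl (h, 2))) (C (d' h))

/-- values of the substitution -/
def psiVal : Src H K → MvPolynomial (Tgt H K) ℤ :=
  Sum.elim (fun hj => C (p : ℤ) * parB K d' hj.1 hj.2) (fun k => C (p : ℤ) * X (Sum.inr k))

/-- the substitution on the polynomial ring -/
def PsiP : MvPolynomial (Src H K) ℤ →+* MvPolynomial (Tgt H K) ℤ :=
  (aeval (psiVal K p d')).toRingHom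

theorem PsiP_X (x : Src H K) : PsiP K p d' (X x) = psiVal K p d' x := by
  simp [PsiP]

theorem PsiP_C (a : ℤ) : PsiP K p d' (C a) = C a := by
  simp [PsiP]

theorem PsiP_relI (f : MvPolynomial (Src H K) ℤ) (hf : f ∈ relI K p d') : PsiP K p d' f = 0 := by
  have : relI K p d' ≤ RingHom.ker (PsiP K p d') := by
    rw [relI, Ideal.span_le]
    rintro _ ⟨⟨h, j⟩, rfl⟩
    rw [SetLike.mem_coe, RingHom.mem_ker, map_scrollRel]
    have e1 : PsiP K p d' (C ((p : ℤ) * d' h)) = C (p : ℤ) * C (d' h) := by rw [PsiP_C, C_mul]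
    have e2 : (fun i => PsiP K p d' (X (Sum.inl (h, i)))) = fun i => C (p : ℤ) * parB K d' h i := by
      funext i
      rw [PsiP_X]; rfl
    simp only at e1 e2 ⊢
    rw [e1, e2]
    exact isScroll_par _ _ _ _ _ j
  exact this hf

/-- the substitution `Psi` of #2565 -/
def PsiB : BB K p d' →+* MvPolynomial (Tgt H K) ℤ :=
  Ideal.Quotient.lift _ (PsiP K p d') (PsiP_relI K p d')

theorem PsiB_xB (x : Src H K) : PsiB K p d' (xB K p d' x) = psiVal K p d' x := by
  simp [PsiB, xB, PsiP_X]

theorem PsiB_vB (h : H) (j : Fin 6) :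
    PsiB K p d' (vB K p d' h j) = C (p : ℤ) * parB K d' h j := by
  rw [vB, PsiB_xB]; rfl

theorem isScroll_vB (h : H) : IsScroll ((((p : ℤ) * d' h : ℤ)) : BB K p d') (vB K p d' h) := by
  intro j
  have h1 : scrollRel (C ((p : ℤ) * d' h)) (fun j => X (Sum.inl (h, j))) j ∈ relI K p d' :=
    Ideal.subset_span ⟨(h, j), rfl⟩
  have h2 := Ideal.Quotient.eq_zero_iff_mem.mpr h1
  rw [map_scrollRel, eq_intCast (C : ℤ →+* MvPolynomial (Src H K) ℤ) _, map_intCast] at h2
  exact h2

/-- universal property of `BB` -/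
def liftB {A : Type*} [CommRing A] (val : Src H K → A)
    (hval : ∀ h, IsScroll ((((p : ℤ) * d' h : ℤ)) : A) (fun j => val (Sum.inl (h, j)))) :
    BB K p d' →+* A :=
  Ideal.Quotient.lift _ (aeval val).toRingHom (by
    have : relI K p d' ≤ RingHom.ker (aeval val).toRingHom := by
      rw [relI, Ideal.span_le]
      rintro _ ⟨⟨h, j⟩, rfl⟩
      rw [SetLike.mem_coe, RingHom.mem_ker, map_scrollRel]
      have := hval h j
      simpa using this
    exact fun f hf => this hf)

theorem liftB_xB {A : Type*} [CommRing A] (val : Src H K → A)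
    (hval : ∀ h, IsScroll ((((p : ℤ) * d' h : ℤ)) : A) (fun j => val (Sum.inl (h, j))))
    (x : Src H K) : liftB K p d' val hval (xB K p d' x) = val x := by
  simp [liftB, xB]

end defs

section tri

variable {H : Type*} [Fintype H] (K : Type*) [Fintype K] (p : ℕ) (d' : H → ℤ)

/-- weight -/
def wT (t : TT H K) : ℕ := ∑ h, (t.1 h).deg + ∑ k, t.2 k

/-- basis element -/
def eT (t : TT H K) : BB K p d' :=
  (∏ h, mu (vB K p d' h) (t.1 h)) * ∏ k, xB K p d' (Sum.inr k) ^ t.2 k

/-- `Psi (e t) / p ^ w t` -/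
def LT (t : TT H K) : MvPolynomial (Tgt H K) ℤ :=
  (∏ h, mu (parB K d' h) (t.1 h)) * ∏ k, X (Sum.inr k) ^ t.2 k

/-- leading exponent -/
def lT (t : TT H K) : Tgt H K →₀ ℕ :=
  ∑ h, muS (parS (Sum.inl (h, 0)) (Sum.inl (h, 1)) (Sum.inl (h, 2))) (t.1 h) +
    ∑ k, t.2 k • Finsupp.single (Sum.inr k) 1

theorem lead_LT (t : TT H K) : Lead (LT K d' t) (lT K t) :=
  (Lead.prod _ fun h _ => lead_mu (lead_par _ _ _ _) (t.1 h)).mul
    (Lead.prod _ fun _ _ => (Lead.X _).pow _)

theorem lT_eq (t : TT H K) : lT K t =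
    Finsupp.equivFunOnFinite.symm (Sum.elim (fun hj : H × Fin 3 => lead3 (t.1 hj.1) hj.2) t.2) := by
  classical
  rw [← Finsupp.univ_sum_single (Finsupp.equivFunOnFinite.symm
    (Sum.elim (fun hj : H × Fin 3 => lead3 (t.1 hj.1) hj.2) t.2)), Fintype.sum_sum_type,
    Fintype.sum_prod_type, lT]
  congr 1
  · refine Finset.sum_congr rfl fun h _ => ?_
    rw [muS_parS, Fin.sum_univ_three]
    simp
  · refine Finset.sum_congr rfl fun k _ => ?_
    simp

theorem lT_injective : Function.Injective (lT (H := H) K) := by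
  intro t t' h
  rw [lT_eq, lT_eq] at h
  have h1 := Finsupp.equivFunOnFinite.symm.injective h
  refine Prod.ext ?_ ?_
  · funext x
    refine lead3_injective ?_
    funext j
    exact congrFun h1 (Sum.inl (x, j))
  · funext k
    exact congrFun h1 (Sum.inr k)

omit [Fintype H] [Fintype K] in
theorem p_mem_mmB : (p : BB K p d') ∈ mmB K p d' := Ideal.subset_span (Set.mem_insert _ _)

omit [Fintype H] [Fintype K] in
theorem xB_mem_mmB (x : Src H K) : xB K p d' x ∈ mmB K p d' :=
  Ideal.subset_span (Set.mem_insert_of_mem _ ⟨x, rfl⟩)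

omit [Fintype H] [Fintype K] in
theorem PsiB_mmB (f : BB K p d') (hf : f ∈ mmB K p d') : C (p : ℤ) ∣ PsiB K p d' f := by
  have : mmB K p d' ≤ (Ideal.span {C (p : ℤ)}).comap (PsiB K p d') := by
    rw [mmB, Ideal.span_le]
    intro g hg
    rw [SetLike.mem_coe, Ideal.mem_comap, Ideal.mem_span_singleton]
    rcases hg with rfl | ⟨x, rfl⟩
    · rw [map_natCast]
      exact dvd_of_eq (by simp)
    · rw [PsiB_xB]
      rcases x with ⟨h, j⟩ | k
      · exact Dvd.intro _ rfl
      · exact Dvd.intro _ rfl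
  exact Ideal.mem_span_singleton.mp (this hf)

theorem eT_mem (t : TT H K) : eT K p d' t ∈ mmB K p d' ^ wT K t := by
  rw [wT, pow_add (mmB K p d'), ← Finset.prod_pow_eq_pow_sum _ _ (mmB K p d'),
    ← Finset.prod_pow_eq_pow_sum _ _ (mmB K p d')]
  refine Ideal.mul_mem_mul (Ideal.prod_mem_prod fun h _ => ?_) (Ideal.prod_mem_prod fun k _ => ?_)
  · exact mu_mem_pow _ _ (fun j => xB_mem_mmB K p d' _) _
  · exact Ideal.pow_mem_pow (xB_mem_mmB K p d' _) _

theorem PsiB_eT (t : TT H K) : PsiB K p d' (eT K p d' t) = C (p : ℤ) ^ wT K t * LT K d' t := by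
  rw [eT, map_mul, map_prod, map_prod, wT, pow_add, ← Finset.prod_pow_eq_pow_sum,
    ← Finset.prod_pow_eq_pow_sum, LT, mul_mul_mul_comm, ← Finset.prod_mul_distrib,
    ← Finset.prod_mul_distrib]
  congr 1
  · refine Finset.prod_congr rfl fun h _ => ?_
    rw [map_mu, ← mu_smul]
    congr 1
    funext j
    exact PsiB_vB K p d' h j
  · refine Finset.prod_congr rfl fun k _ => ?_
    rw [map_pow, PsiB_xB, ← mul_pow]
    rfl

section span

variable [DecidableEq H] [DecidableEq K]

omit [DecidableEq K] in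
theorem eT_update_left (t : TT H K) (h : H) (t' : NI) :
    eT K p d' (Function.update t.1 h t', t.2) =
      ((∏ x ∈ Finset.univ.erase h, mu (vB K p d' x) (t.1 x)) *
        ∏ k, xB K p d' (Sum.inr k) ^ t.2 k) * mu (vB K p d' h) t' := by
  rw [eT, ← Finset.mul_prod_erase Finset.univ _ (Finset.mem_univ h)]
  simp only [Function.update_self]
  have : ∏ x ∈ Finset.univ.erase h, mu (vB K p d' x) (Function.update t.1 h t' x) =
      ∏ x ∈ Finset.univ.erase h, mu (vB K p d' x) (t.1 x) :=
    Finset.prod_congr rfl fun x hx => by rw [Function.update_of_ne (Finset.ne_of_mem_erase hx)]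
  rw [this]
  ring

omit [DecidableEq H] in
theorem eT_update_right (t : TT H K) (k : K) :
    eT K p d' (t.1, Function.update t.2 k (t.2 k + 1)) = xB K p d' (Sum.inr k) * eT K p d' t := by
  rw [eT, eT, ← Finset.mul_prod_erase Finset.univ _ (Finset.mem_univ k),
    ← Finset.mul_prod_erase Finset.univ (fun k => xB K p d' (Sum.inr k) ^ t.2 k)
      (Finset.mem_univ k)]
  simp only [Function.update_self]
  have : ∏ x ∈ Finset.univ.erase k,
      xB K p d' (Sum.inr x) ^ (Function.update t.2 k (t.2 k + 1) x) =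
      ∏ x ∈ Finset.univ.erase k, xB K p d' (Sum.inr x) ^ t.2 x :=
    Finset.prod_congr rfl fun x hx => by rw [Function.update_of_ne (Finset.ne_of_mem_erase hx)]
  rw [this, pow_succ]
  ring

theorem xB_mul_eT_mem (x : Src H K) (t : TT H K) :
    xB K p d' x * eT K p d' t ∈ Submodule.span ℤ (Set.range (eT K p d')) := by
  rcases x with ⟨h, j⟩ | k
  · have key := mul_mu_mem (isScroll_vB K p d' h)
      (Submodule.span ℤ (Set.range (eT K p d'))).toAddSubgroup
      ((∏ x ∈ Finset.univ.erase h, mu (vB K p d' x) (t.1 x)) *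
        ∏ k, xB K p d' (Sum.inr k) ^ t.2 k)
      (fun t' => by
        rw [← eT_update_left]
        exact Submodule.subset_span ⟨_, rfl⟩) j (t.1 h)
    have e : xB K p d' (Sum.inl (h, j)) * eT K p d' t =
        ((∏ x ∈ Finset.univ.erase h, mu (vB K p d' x) (t.1 x)) *
        ∏ k, xB K p d' (Sum.inr k) ^ t.2 k) * (vB K p d' h j * mu (vB K p d' h) (t.1 h)) := by
      have h1 := eT_update_left K p d' t h (t.1 h)
      rw [Function.update_eq_self] at h1
      rw [show t = (t.1, t.2) from rfl, h1, vB]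
      ring
    rw [e]
    exact key
  · rw [← eT_update_right]
    exact Submodule.subset_span ⟨_, rfl⟩

theorem xB_mul_mem (x : Src H K) (n : BB K p d')
    (hn : n ∈ Submodule.span ℤ (Set.range (eT K p d'))) :
    xB K p d' x * n ∈ Submodule.span ℤ (Set.range (eT K p d')) := by
  induction hn using Submodule.span_induction with
  | mem y hy =>
    obtain ⟨t, rfl⟩ := hy
    exact xB_mul_eT_mem K p d' x t
  | zero => rw [mul_zero]; exact Submodule.zero_mem _
  | add y z _ _ hy hz => rw [mul_add]; exact Submodule.add_mem _ hy hz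
  | smul a y _ hy => rw [mul_smul_comm]; exact Submodule.smul_mem _ a hy

theorem mk_mul_mem (f : MvPolynomial (Src H K) ℤ) (n : BB K p d')
    (hn : n ∈ Submodule.span ℤ (Set.range (eT K p d'))) :
    Ideal.Quotient.mk (relI K p d') f * n ∈ Submodule.span ℤ (Set.range (eT K p d')) := by
  induction f using MvPolynomial.induction_on generalizing n with
  | C a =>
    rw [eq_intCast (C : ℤ →+* MvPolynomial (Src H K) ℤ) _, map_intCast, ← zsmul_eq_mul]
    exact Submodule.smul_mem _ a hn
  | add f g hf hg =>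
    rw [map_add, add_mul]
    exact Submodule.add_mem _ (hf n hn) (hg n hn)
  | mul_X f x hf =>
    rw [map_mul, mul_assoc]
    exact hf _ (xB_mul_mem K p d' x n hn)

theorem span_eT : Submodule.span ℤ (Set.range (eT K p d')) = ⊤ := by
  rw [eq_top_iff]
  intro f _
  obtain ⟨g, rfl⟩ := Ideal.Quotient.mk_surjective f
  have h1 : (1 : BB K p d') ∈ Submodule.span ℤ (Set.range (eT K p d')) := by
    refine Submodule.subset_span ⟨(fun _ => NI.Ia 0 0 0, fun _ => 0), ?_⟩
    simp [eT]
  have := mk_mul_mem K p d' g 1 h1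
  rwa [mul_one] at this

end span

/-- **The model ring is a triangular weighted system.** -/
def tri : Tri p (BB K p d') (Tgt H K) (TT H K) where
  Psi := PsiB K p d'
  mm := mmB K p d'
  w := wT K
  e := eT K p d'
  L := LT K d'
  ℓ := lT K
  p_mem := p_mem_mmB K p d'
  Psi_mm := PsiB_mmB K p d'
  e_mem := eT_mem K p d'
  Psi_e := PsiB_eT K p d'
  lead := lead_LT K d'
  inj := lT_injective K
  span := by classical exact span_eT K p d'

/-- **[H-SM]** and its converse for the model ring -/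
theorem mem_mmB_pow_iff (hp : p ≠ 0) {i : ℕ} {f : BB K p d'} :
    f ∈ mmB K p d' ^ i ↔ C (p : ℤ) ^ i ∣ PsiB K p d' f :=
  (tri K p d').mem_pow_iff_dvd hp

end tri

end

end Fermat.Agent.ML.Hard.SM
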