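/-
ML / HARD / SM : from a triangular weighted system (`Tri`) to helper72's `OrdModel`, the count of the
indices of weight `≤ i`, and `OrdModel` for the model ring `SM.BB`.
-/
import Fermat.Agent.ML.Hard.SM.Model
import Fermat.Agent.ML.Hard.Defs

namespace Fermat.Agent.ML.Hard.SM

open MvPolynomial

namespace Tri

variable {p : ℕ} {A : Type*} [CommRing A] {τ T : Type*} (D : Tri p A τ T)

theorem repr_sum_apply (hp : p ≠ 0) (J : Finset T) (r : T → ℤ) (t : T) [Decidable (t ∈ J)] :
    (D.basis hp).repr (∑ s ∈ J, r s • D.e s) t = if t ∈ J then r t else 0 := by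
  classical
  simp only [map_sum, map_smul, ← D.basis_apply hp, Module.Basis.repr_self,
    Finsupp.finsetSum_apply, Finsupp.smul_apply, Finsupp.single_apply, smul_eq_mul, mul_ite,
    mul_one, mul_zero, Finset.sum_ite_eq']
  congr

theorem hilb (hp : p ≠ 0) (i : ℕ) (J : Finset T) (hJ : ∀ t, t ∈ J ↔ D.w t ≤ i) :
    ∃ S : Finset A, S.card ≤ J.card ∧
      ∀ f ∈ D.mm ^ i, ∃ c : A → ℤ, f - ∑ t ∈ S, c t • t ∈ D.mm ^ (i + 1) := by
  classical
  refine ⟨J.image fun t => (p : A) ^ (i - D.w t) * D.e t, Finset.card_image_le, fun f hf => ?_⟩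
  have h1 := (D.mem_pow_iff hp).mp hf
  choose c' hc' using h1
  set g : T → A := fun t => (p : A) ^ (i - D.w t) * D.e t with hg
  refine ⟨fun b => ∑ t ∈ J with g t = b, c' t, ?_⟩
  have h2 : ∑ b ∈ J.image g, (∑ t ∈ J with g t = b, c' t) • b = ∑ t ∈ J, c' t • g t := by
    refine Finset.sum_image' _ fun t0 _ => ?_
    rw [Finset.sum_smul]
    refine Finset.sum_congr rfl fun t ht => ?_
    rw [(Finset.mem_filter.mp ht).2]
  rw [h2]
  have h3 : ∑ t ∈ J, c' t • g t = ∑ t ∈ J, (D.basis hp).repr f t • D.e t := by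
    refine Finset.sum_congr rfl fun t _ => ?_
    rw [hc' t, hg, zsmul_eq_mul, zsmul_eq_mul]
    push_cast
    ring
  rw [h3, D.mem_pow_iff hp]
  intro t
  rw [map_sub, Finsupp.sub_apply, D.repr_sum_apply hp]
  by_cases ht : t ∈ J
  · rw [if_pos ht, sub_self]; exact dvd_zero _
  · have : i + 1 - D.w t = 0 := by
      have := (hJ t).not.mp ht
      omega
    rw [this, pow_zero]; exact one_dvd _

/-- a triangular weighted system with residue ring `F_p` and finite level sets is an `OrdModel` -/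
theorem ordModel (hp : p.Prime) (res : ∀ f : A, ∃ c : ℤ, f - (c : A) ∈ D.mm) (Hf : ℕ → ℕ)
    (hfin : ∀ i, ∃ J : Finset T, (∀ t, t ∈ J ↔ D.w t ≤ i) ∧ J.card ≤ Hf i) :
    OrdModel p A D.mm Hf where
  p_mem := D.p_mem
  res := res
  mul := fun f g i j hf hg hfg => hg (by
    have := D.mem_pow_of_mul_mem hp hf hfg
    rwa [show i + j + 1 - i = j + 1 by omega] at this)
  hilb := fun i => by
    obtain ⟨J, hJ, hc⟩ := hfin i
    obtain ⟨S, hS, h⟩ := D.hilb hp.ne_zero i J hJ
    exact ⟨S, hS.trans hc, h⟩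

end Tri

/-! ### the count -/

/-- inverse of `NI.code` -/
def NI.decode : Fin 4 × ℕ × ℕ × ℕ → NI
  | (0, i, l, n) => .Ia i l n
  | (1, i, l, n) => .Ib i l n
  | (2, i, k, n) => .IIa i k n
  | (3, i, k, n) => .IIb i k n

theorem NI.decode_code (t : NI) : NI.decode t.code = t := by
  cases t <;> rfl

section count

variable {H : Type*} [Fintype H] (K : Type*) [Fintype K]

theorem deg_le_wT (t : TT H K) (h : H) : (t.1 h).deg ≤ wT K t :=
  (Finset.single_le_sum (f := fun h => (t.1 h).deg) (fun _ _ => Nat.zero_le _)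
    (Finset.mem_univ h)).trans (Nat.le_add_right _ _)

theorem exp_le_wT (t : TT H K) (k : K) : t.2 k ≤ wT K t :=
  (Finset.single_le_sum (f := fun k => t.2 k) (fun _ _ => Nat.zero_le _)
    (Finset.mem_univ k)).trans (Nat.le_add_left _ _)

/-- the Hilbert bound -/
def HB (s r : ℕ) (i : ℕ) : ℕ := 4 ^ s * (i + 1) ^ (3 * s + r)

theorem exists_finset_wT_le (i : ℕ) : ∃ J : Finset (TT H K),
    (∀ t, t ∈ J ↔ wT K t ≤ i) ∧ J.card ≤ HB (Fintype.card H) (Fintype.card K) i := by
  classical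
  let dec : (H → Fin 4 × Fin (i + 1) × Fin (i + 1) × Fin (i + 1)) × (K → Fin (i + 1)) → TT H K :=
    fun u => (fun h => NI.decode ((u.1 h).1, ((u.1 h).2.1 : ℕ), ((u.1 h).2.2.1 : ℕ),
      ((u.1 h).2.2.2 : ℕ)), fun k => (u.2 k : ℕ))
  refine ⟨(Finset.univ.image dec).filter fun t => wT K t ≤ i, fun t => ?_, ?_⟩
  · rw [Finset.mem_filter]
    refine ⟨fun h => h.2, fun h => ⟨?_, h⟩⟩
    rw [Finset.mem_image]
    have hc := fun x => (t.1 x).code_le
    have hd := fun x => deg_le_wT K t x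
    refine ⟨(fun x => ((t.1 x).code.1, ⟨(t.1 x).code.2.1, by have := (hc x).1; have := hd x; omega⟩,
      ⟨(t.1 x).code.2.2.1, by have := (hc x).2.1; have := hd x; omega⟩,
      ⟨(t.1 x).code.2.2.2, by have := (hc x).2.2; have := hd x; omega⟩),
      fun k => ⟨t.2 k, by have := exp_le_wT K t k; omega⟩), Finset.mem_univ _, ?_⟩
    refine Prod.ext ?_ rfl
    funext x
    exact NI.decode_code (t.1 x)
  · refine (Finset.card_filter_le _ _).trans (Finset.card_image_le.trans ?_)
    rw [Finset.card_univ]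
    simp only [Fintype.card_prod, Fintype.card_pi, Fintype.card_fin, Finset.prod_const,
      Finset.card_univ, HB]
    refine le_of_eq ?_
    rw [pow_add, pow_mul, mul_pow]
    ring

end count

/-! ### `OrdModel` for `SM.BB` -/

section model

variable {H : Type*} (K : Type*) (p : ℕ) (d' : H → ℤ)

theorem res_mmB (f : BB K p d') : ∃ c : ℤ, f - (c : BB K p d') ∈ mmB K p d' := by
  obtain ⟨g, rfl⟩ := Ideal.Quotient.mk_surjective f
  induction g using MvPolynomial.induction_on with
  | C a =>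
    refine ⟨a, ?_⟩
    rw [eq_intCast (C : ℤ →+* MvPolynomial (Src H K) ℤ) _, map_intCast, sub_self]
    exact Ideal.zero_mem _
  | add f g hf hg =>
    obtain ⟨a, ha⟩ := hf
    obtain ⟨b, hb⟩ := hg
    refine ⟨a + b, ?_⟩
    have := Ideal.add_mem _ ha hb
    rw [map_add]
    push_cast
    convert this using 1
    ring
  | mul_X f x _ =>
    refine ⟨0, ?_⟩
    rw [Int.cast_zero, sub_zero, map_mul]
    exact Ideal.mul_mem_left _ _ (xB_mem_mmB K p d' x)

theorem ordModel_BB [Fintype H] [Fintype K] (hp : p.Prime) :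
    OrdModel p (BB K p d') (mmB K p d') (HB (Fintype.card H) (Fintype.card K)) :=
  (tri K p d').ordModel hp (res_mmB K p d') _ (exists_finset_wT_le K)

end model

end Fermat.Agent.ML.Hard.SM
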