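/-
ML / HARD / SM : `OrdModel` for helper72's model ring `Hard.BB p Hr σ D` (file `ML/Hard/Model.lean`).
It is the same quotient of the same polynomial ring as `SM.BB σ p D`: transport along an equality of ideals.
-/
import Fermat.Agent.ML.Hard.SM.Ord
import Fermat.Agent.ML.Hard.Model

namespace Fermat.Agent.ML.Hard.SM

open MvPolynomial

variable (p : ℕ) (Hr σ : Type) (D : Hr → ℤ)

theorem span_relSet_eq : Ideal.span (relSet p Hr σ D) = relI σ p D := by
  apply le_antisymm
  · rw [Ideal.span_le]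
    rintro f ⟨q, hf⟩
    have key : ∀ j, scrollRel (C ((p : ℤ) * D q))
        (fun j => (X (Sum.inl (q, j)) : MvPolynomial (Src Hr σ) ℤ)) j ∈ relI σ p D :=
      fun j => Ideal.subset_span ⟨(q, j), rfl⟩
    rcases hf with h | h | h | h | h | h
    · have := key 0
      rw [SetLike.mem_coe, h]
      convert this using 1
      simp only [scrollRel, genP, Matrix.cons_val_zero]
      ring
    · rw [SetLike.mem_coe, h]; exact key 1
    · rw [SetLike.mem_coe, h]; exact key 2
    · rw [SetLike.mem_coe, h]; exact key 3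
    · rw [SetLike.mem_coe, h]; exact key 4
    · have := key 5
      rw [SetLike.mem_coe, h]
      convert this using 1
      simp only [scrollRel, genP, Matrix.cons_val]
      ring
  · rw [relI, Ideal.span_le]
    rintro _ ⟨⟨q, j⟩, rfl⟩
    rw [SetLike.mem_coe]
    fin_cases j
    · refine Ideal.subset_span ⟨q, Or.inl ?_⟩
      show (X (Sum.inl (q, 1)) : MvPolynomial (Src Hr σ) ℤ) ^ 2 -
        X (Sum.inl (q, 0)) * X (Sum.inl (q, 2)) = _
      simp only [genP]
      ring
    · exact Ideal.subset_span ⟨q, Or.inr (Or.inl rfl)⟩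
    · exact Ideal.subset_span ⟨q, Or.inr (Or.inr (Or.inl rfl))⟩
    · exact Ideal.subset_span ⟨q, Or.inr (Or.inr (Or.inr (Or.inl rfl)))⟩
    · exact Ideal.subset_span ⟨q, Or.inr (Or.inr (Or.inr (Or.inr (Or.inl rfl))))⟩
    · refine Ideal.subset_span ⟨q, Or.inr (Or.inr (Or.inr (Or.inr (Or.inr ?_))))⟩
      show (X (Sum.inl (q, 4)) : MvPolynomial (Src Hr σ) ℤ) ^ 2 -
        (X (Sum.inl (q, 3)) * X (Sum.inl (q, 5)) + C ((p : ℤ) * D q) * X (Sum.inl (q, 4))) = _
      simp only [genP]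
      ring

/-- the statement, generic in the ideal -/
def StmtI (Hf : ℕ → ℕ) (I : Ideal (MvPolynomial (Src Hr σ) ℤ)) : Prop :=
  OrdModel p (MvPolynomial (Src Hr σ) ℤ ⧸ I)
    (Ideal.span (insert ((p : ℕ) : MvPolynomial (Src Hr σ) ℤ ⧸ I)
      (Set.range fun x => Ideal.Quotient.mk I (X x)))) Hf

theorem mm_eq : Hard.mm p Hr σ D =
    Ideal.span (insert ((p : ℕ) : Hard.BB p Hr σ D)
      (Set.range fun x => Ideal.Quotient.mk (Ideal.span (relSet p Hr σ D)) (X x))) := by
  apply le_antisymm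
  · rw [Hard.mm, Ideal.span_le]
    rintro f ((hf | ⟨⟨q, j⟩, rfl⟩) | ⟨s, rfl⟩)
    · rw [Set.mem_singleton_iff] at hf
      rw [hf]
      exact Ideal.subset_span (Set.mem_insert _ _)
    · exact Ideal.subset_span (Set.mem_insert_of_mem _ ⟨Sum.inl (q, j), rfl⟩)
    · exact Ideal.subset_span (Set.mem_insert_of_mem _ ⟨Sum.inr s, rfl⟩)
  · rw [Ideal.span_le]
    rintro f (hf | ⟨(⟨q, j⟩ | s), rfl⟩)
    · rw [hf]
      exact Ideal.subset_span (Or.inl (Or.inl rfl))
    · exact Ideal.subset_span (Or.inl (Or.inr ⟨(q, j), rfl⟩))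
    · exact Ideal.subset_span (Or.inr ⟨s, rfl⟩)

/-- **`ordModel_BB` of section HARD (#2681)**, for helper72's ring;
`HB (card Hr) (card σ) i = 4 ^ card Hr * (i + 1) ^ (3 * card Hr + card σ)` is `Hard.HH Hr σ i`. -/
theorem ordModel_BB72 [Fintype Hr] [Fintype σ] (hp : p.Prime) :
    OrdModel p (Hard.BB p Hr σ D) (Hard.mm p Hr σ D)
      (HB (Fintype.card Hr) (Fintype.card σ)) := by
  have h1 : StmtI p Hr σ (HB (Fintype.card Hr) (Fintype.card σ)) (relI σ p D) :=
    ordModel_BB σ p D hp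
  rw [← span_relSet_eq] at h1
  rw [mm_eq]
  exact h1

end Fermat.Agent.ML.Hard.SM
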