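/-
ML / HARD / SM : toolbox for `liftB` (universal property of the model ring `SM.BB K p d'`):
dictionary with `Hard.Scroll`, image of `mmB`, the shape `hmap` of `Hard.stepF`, the auxiliary integer point.
-/
import Fermat.Agent.ML.Hard.SM.Ord

namespace Fermat.Agent.ML.Hard.SM

open MvPolynomial

theorem isScroll_iff_scroll {A : Type*} [CommRing A] {d : A} {v : Fin 6 → A} :
    IsScroll d v ↔ Hard.Scroll v d := by
  rw [isScroll_iff]
  constructor
  · rintro ⟨h1, h2, h3, h4, h5, h6⟩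
    exact ⟨by rw [← sq]; exact h1, h2, h3, h4, h5, by rw [← sq]; exact h6⟩
  · intro h
    exact ⟨by rw [sq]; exact h.r12, h.r13, h.r14, h.r23, h.r24, by rw [sq]; exact h.r34⟩

theorem HB_mono (s r : ℕ) : Monotone (HB s r) := by
  intro a b h
  exact Nat.mul_le_mul_left _ (Nat.pow_le_pow_left (by omega) _)

theorem HB_apply (s r i : ℕ) : HB s r i = 4 ^ s * (i + 1) ^ (3 * s + r) := rfl

section lift

variable {H : Type*} (K : Type*) (p : ℕ) (d' : H → ℤ) {A : Type*} [CommRing A]
  (val : Src H K → A)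
  (hval : ∀ h, IsScroll ((((p : ℤ) * d' h : ℤ)) : A) (fun j => val (Sum.inl (h, j))))

theorem map_liftB_mmB : (mmB K p d').map (liftB K p d' val hval) =
    Ideal.span (insert (p : A) (Set.range val)) := by
  rw [mmB, Ideal.map_span]
  congr 1
  rw [Set.image_insert_eq, map_natCast, ← Set.range_comp]
  congr 2
  funext x
  exact liftB_xB K p d' val hval x

theorem liftB_mem_of_mem (I : Ideal A) (hp : (p : A) ∈ I) (hI : ∀ x, val x ∈ I)
    (b : BB K p d') (hb : b ∈ mmB K p d') : liftB K p d' val hval b ∈ I := by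
  have h1 : (mmB K p d').map (liftB K p d' val hval) ≤ I := by
    rw [map_liftB_mmB, Ideal.span_le]
    rintro _ (rfl | ⟨x, rfl⟩)
    · exact hp
    · exact hI x
  exact h1 (Ideal.mem_map_of_mem _ hb)

end lift

section hmap

variable {H : Type*} (K : Type*) (p : ℕ) (d' : H → ℤ) {A : Type*} [CommRing A] (J mA : Ideal A)
  (val0 : Src H K → A)
  (hval : ∀ h, IsScroll ((((p : ℤ) * d' h : ℤ)) : A ⧸ J)
    (fun j => Ideal.Quotient.mk J (val0 (Sum.inl (h, j)))))

/-- the hypothesis `hmap` of `Hard.stepF` / `Hard.finalF` -/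
theorem map_liftB_eq (hp : (p : A) ∈ mA) (hm : ∀ x, val0 x ∈ mA)
    (hgen : mA ≤ Ideal.span (insert (p : A) (Set.range val0)) ⊔ J) :
    (mmB K p d').map (liftB K p d' (fun x => Ideal.Quotient.mk J (val0 x)) hval) =
      mA.map (Ideal.Quotient.mk J) := by
  rw [map_liftB_mmB]
  have e : Ideal.span (insert ((p : ℕ) : A ⧸ J) (Set.range fun x => Ideal.Quotient.mk J (val0 x))) =
      (Ideal.span (insert (p : A) (Set.range val0))).map (Ideal.Quotient.mk J) := by
    rw [Ideal.map_span, Set.image_insert_eq, map_natCast, ← Set.range_comp]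
    rfl
  rw [e]
  apply le_antisymm
  · refine Ideal.map_mono ?_
    rw [Ideal.span_le]
    rintro _ (rfl | ⟨x, rfl⟩)
    · exact hp
    · exact hm x
  · refine (Ideal.map_mono hgen).trans ?_
    rw [Ideal.map_sup, Ideal.map_quotient_self, sup_bot_eq]

end hmap

section aux

variable {H : Type*} (K : Type*) (p : ℕ) (d' : H → ℤ)

theorem isScroll_single {A : Type*} [CommRing A] (d x0 : A) :
    IsScroll d ![x0, 0, 0, 0, 0, 0] := by
  rw [isScroll_iff]
  simp

/-- values of the auxiliary integer point -/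
def auxVal (κ : K → ℤ) : Src H K → ℤ :=
  Sum.elim (fun hj => (![(p : ℤ), 0, 0, 0, 0, 0] : Fin 6 → ℤ) hj.2) κ

/-- **the auxiliary integer point**: raised hard primes `↦ (p,0,0,0,0,0)`, the variable `k ↦ κ k` -/
noncomputable def xaB (κ : K → ℤ) : BB K p d' →+* ℤ :=
  liftB K p d' (auxVal K p κ) (fun _ => isScroll_single _ _)

theorem xaB_inl (κ : K → ℤ) (h : H) (j : Fin 6) :
    xaB K p d' κ (xB K p d' (Sum.inl (h, j))) = (![(p : ℤ), 0, 0, 0, 0, 0] : Fin 6 → ℤ) j :=
  liftB_xB K p d' _ _ _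

theorem xaB_inr (κ : K → ℤ) (k : K) : xaB K p d' κ (xB K p d' (Sum.inr k)) = κ k :=
  liftB_xB K p d' _ _ _

theorem dvd_xaB (κ : K → ℤ) (hκ : ∀ k, (p : ℤ) ∣ κ k) (b : BB K p d') (hb : b ∈ mmB K p d') :
    (p : ℤ) ∣ xaB K p d' κ b := by
  have := liftB_mem_of_mem K p d' (auxVal K p κ) (fun _ => isScroll_single _ _)
    (Ideal.span {(p : ℤ)}) (by simp) (by
      rintro (⟨h, j⟩ | k)
      · rw [Ideal.mem_span_singleton]
        fin_cases j <;> simp [auxVal]
      · rw [Ideal.mem_span_singleton]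
        exact hκ k) b hb
  exact Ideal.mem_span_singleton.mp this

end aux

end Fermat.Agent.ML.Hard.SM
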